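import Mathlib

/-!
# Depth lemmas for S57

Helper lemmas: associated primes vs. regular sequences, torsion-freeness of maximal
Cohen-Macaulay modules over local domains, and depth of a quotient by a regular element.
-/

set_option autoImplicit false

namespace Fermat.Agent.S57

open IsLocalRing RingTheory.Sequence Submodule Pointwise

/-- If `y ∈ 𝔪` is `M`-regular and `P` is an associated prime of `M`, there is an associated
prime `P'` of `M/yM` containing `P` and `y`. -/
theorem exists_assPrime_quotSMulTop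
    {R : Type} [CommRing R] [IsNoetherianRing R] [IsLocalRing R]
    {M : Type} [AddCommGroup M] [Module R M] [Module.Finite R M]
    {y : R} (hy : y ∈ maximalIdeal R) (hreg : IsSMulRegular M y)
    {P : Ideal R} (hP : IsAssociatedPrime P M) :
    ∃ P' : Ideal R, IsAssociatedPrime P' (QuotSMulTop y M) ∧ P ≤ P' ∧ y ∈ P' := by
  obtain ⟨hPprime, m, hm⟩ := (isAssociatedPrime_iff).mp hP
  -- the submodule killed by P
  let M' : Submodule R M :=
    { carrier := {m' | ∀ p ∈ P, p • m' = 0}
      add_mem' := fun {a b} ha hb p hp => by rw [smul_add, ha p hp, hb p hp, add_zero]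
      zero_mem' := fun p _ => smul_zero p
      smul_mem' := fun c a ha p hp => by rw [smul_comm, ha p hp, smul_zero] }
  have hmM' : m ∈ M' := by
    intro p hp
    rw [hm, mem_colon_singleton, mem_bot] at hp
    exact hp
  have hm0 : m ≠ 0 := by
    rintro rfl
    apply hPprime.ne_top
    rw [hm]
    ext r
    simp [mem_colon_singleton]
  -- M' is not contained in y • M
  have hnot : ¬ M' ≤ y • (⊤ : Submodule R M) := by
    intro hle
    have hle' : M' ≤ (Ideal.span {y}) • M' := by
      intro m' hm'
      obtain ⟨m'', -, rfl⟩ := (Submodule.mem_smul_pointwise_iff_exists _ _ _).mp (hle hm')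
      have hm''M' : m'' ∈ M' := by
        intro p hp
        have h1 : y • (p • m'') = 0 := by
          rw [smul_comm]
          exact hm' p hp
        exact hreg.right_eq_zero_of_smul h1
      rw [Submodule.ideal_span_singleton_smul]
      exact Submodule.smul_mem_pointwise_smul m'' y M' hm''M'
    have hfg : M'.FG := IsNoetherian.noetherian M'
    have hjac : Ideal.span {y} ≤ (⊥ : Ideal R).jacobson := by
      rw [Ideal.span_singleton_le_iff_mem]
      exact IsLocalRing.maximalIdeal_le_jacobson ⊥ hy
    have hbot : M' = ⊥ := Submodule.eq_bot_of_le_smul_of_le_jacobson_bot _ _ hfg hle' hjac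
    exact hm0 (by simpa [hbot] using hmM')
  obtain ⟨m', hm'M', hm'y⟩ := Set.not_subset.mp hnot
  have hbar : (Submodule.Quotient.mk m' : QuotSMulTop y M) ≠ 0 := by
    intro h
    exact hm'y ((Submodule.Quotient.mk_eq_zero _).mp h)
  obtain ⟨P', hP', hle⟩ := exists_le_isAssociatedPrime_of_isNoetherianRing R _ hbar
  refine ⟨P', hP', fun p hp => hle ?_, hle ?_⟩
  · rw [mem_colon_singleton, mem_bot, ← Submodule.Quotient.mk_smul, hm'M' p hp,
      Submodule.Quotient.mk_zero]
  · rw [mem_colon_singleton, mem_bot, ← Submodule.Quotient.mk_smul,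
      Submodule.Quotient.mk_eq_zero]
    exact Submodule.smul_mem_pointwise_smul m' y ⊤ Submodule.mem_top


/-- If `P < P'` are primes with `y ∈ P' \ P`, then `dim R/P' + 1 ≤ dim R/P`. -/
theorem ringKrullDim_quotient_succ_le_of_lt
    {R : Type} [CommRing R] {P P' : Ideal R} [P.IsPrime] (hle : P ≤ P') {y : R}
    (hyP : y ∉ P) (hyP' : y ∈ P') :
    ringKrullDim (R ⧸ P') + 1 ≤ ringKrullDim (R ⧸ P) := by
  have hnzd : (Ideal.Quotient.mk P y) ∈ nonZeroDivisors (R ⧸ P) := by
    apply mem_nonZeroDivisors_of_ne_zero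
    rwa [Ne, Ideal.Quotient.eq_zero_iff_mem]
  have h1 := ringKrullDim_quotient_succ_le_of_nonZeroDivisor hnzd
  refine le_trans ?_ h1
  gcongr
  let f : (R ⧸ P) ⧸ Ideal.span {Ideal.Quotient.mk P y} →+* R ⧸ P' :=
    Ideal.Quotient.lift _ (Ideal.Quotient.factor hle) (by
      intro a ha
      obtain ⟨c, rfl⟩ := Ideal.mem_span_singleton'.mp ha
      obtain ⟨c, rfl⟩ := Ideal.Quotient.mk_surjective c
      rw [← map_mul, Ideal.Quotient.factor_mk, Ideal.Quotient.eq_zero_iff_mem]
      exact Ideal.mul_mem_left _ _ hyP')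
  have hf : Function.Surjective f := by
    intro z
    obtain ⟨z, rfl⟩ := Ideal.Quotient.mk_surjective z
    exact ⟨Ideal.Quotient.mk _ (Ideal.Quotient.mk P z), by simp [f]⟩
  exact ringKrullDim_le_of_surjective f hf

/-- **Depth is at most the dimension of any associated prime.** -/
theorem natCast_le_ringKrullDim_quotient_of_isWeaklyRegular
    {R : Type} [CommRing R] [IsNoetherianRing R] [IsLocalRing R] (rs : List R) :
    ∀ {M : Type} [AddCommGroup M] [Module R M] [Module.Finite R M],
      (∀ r ∈ rs, r ∈ maximalIdeal R) → IsWeaklyRegular M rs →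
      ∀ P : Ideal R, IsAssociatedPrime P M → (rs.length : WithBot ℕ∞) ≤ ringKrullDim (R ⧸ P) := by
  induction rs with
  | nil =>
    intro M _ _ _ _ _ P hP
    haveI := hP.isPrime
    simpa using ringKrullDim_nonneg_of_nontrivial (R := R ⧸ P)
  | cons y rs ih =>
    intro M _ _ _ hmem hreg P hP
    rw [isWeaklyRegular_cons_iff] at hreg
    have hy : y ∈ maximalIdeal R := hmem y List.mem_cons_self
    obtain ⟨P', hP', hle, hyP'⟩ := exists_assPrime_quotSMulTop hy hreg.1 hP
    have hyP : y ∉ P := by
      intro hyP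
      obtain ⟨hPprime, m, hm⟩ := (isAssociatedPrime_iff).mp hP
      have hm0 : m ≠ 0 := by
        rintro rfl
        apply hPprime.ne_top
        rw [hm]
        ext r
        simp [mem_colon_singleton]
      rw [hm, mem_colon_singleton, mem_bot] at hyP
      exact hm0 (hreg.1.right_eq_zero_of_smul hyP)
    haveI := hP.isPrime
    have h1 := ih (M := QuotSMulTop y M) (fun r hr => hmem r (List.mem_cons_of_mem _ hr))
      hreg.2 P' hP'
    have h2 := ringKrullDim_quotient_succ_le_of_lt hle hyP hyP'
    calc ((y :: rs).length : WithBot ℕ∞) = (rs.length : WithBot ℕ∞) + 1 := by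
          simp
      _ ≤ ringKrullDim (R ⧸ P') + 1 := by gcongr
      _ ≤ ringKrullDim (R ⧸ P) := h2

/-- A maximal Cohen-Macaulay module over a Noetherian local domain is torsion-free. -/
theorem isSMulRegular_of_ne_zero_of_isWeaklyRegular
    {R : Type} [CommRing R] [IsNoetherianRing R] [IsLocalRing R] [IsDomain R]
    {M : Type} [AddCommGroup M] [Module R M] [Module.Finite R M]
    (rs : List R) (hdim : ringKrullDim R ≤ (rs.length : WithBot ℕ∞))
    (hmem : ∀ r ∈ rs, r ∈ maximalIdeal R) (hreg : IsWeaklyRegular M rs)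
    {x : R} (hx : x ≠ 0) : IsSMulRegular M x := by
  by_contra hnot
  have hmemx : x ∈ ({r : R | IsSMulRegular M r}ᶜ : Set R) := hnot
  rw [← biUnion_associatedPrimes_eq_compl_regular] at hmemx
  obtain ⟨P, hP, hxP⟩ := Set.mem_iUnion₂.mp hmemx
  have h1 := natCast_le_ringKrullDim_quotient_of_isWeaklyRegular rs hmem hreg P hP
  have h2 : ringKrullDim (R ⧸ P) + 1 ≤ ringKrullDim R := by
    have hnzd : x ∈ nonZeroDivisors R := mem_nonZeroDivisors_of_ne_zero hx
    refine le_trans ?_ (ringKrullDim_quotient_succ_le_of_nonZeroDivisor hnzd)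
    gcongr
    exact ringKrullDim_le_of_surjective
      (Ideal.Quotient.factor (show Ideal.span {x} ≤ P from
        (Ideal.span_singleton_le_iff_mem P).mpr hxP))
      (Ideal.Quotient.factor_surjective _)
  have h3 : (rs.length : WithBot ℕ∞) + 1 ≤ (rs.length : WithBot ℕ∞) :=
    le_trans (le_trans (by gcongr) h2) hdim
  have h4 : ((rs.length + 1 : ℕ) : WithBot ℕ∞) ≤ ((rs.length : ℕ) : WithBot ℕ∞) := by
    push_cast
    exact h3
  have h5 : rs.length + 1 ≤ rs.length := by exact_mod_cast h4
  omega


open CategoryTheory CategoryTheory.Abelian in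
/-- **Depth drops by at most one modulo a regular element** (via the Rees theorem). -/
theorem exists_isRegular_quotSMulTop
    {R : Type} [CommRing R] [IsNoetherianRing R] [IsLocalRing R]
    {M : Type} [AddCommGroup M] [Module R M] [Module.Finite R M]
    (rs : List R) (n : ℕ) (hlen : rs.length = n + 1)
    (hmem : ∀ r ∈ rs, r ∈ maximalIdeal R) (hreg : IsRegular M rs)
    {x : R} (hx : x ∈ maximalIdeal R) (hxreg : IsSMulRegular M x) :
    ∃ rs' : List R, rs'.length = n ∧ (∀ r ∈ rs', r ∈ maximalIdeal R) ∧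
      IsRegular (QuotSMulTop x M) rs' := by
  have hntr : Nontrivial M := hreg.nontrivial
  have hntr' : Nontrivial (QuotSMulTop x M) := nontrivial_quotSMulTop_of_mem_maximalIdeal M hx
  have smul_lt : maximalIdeal R • (⊤ : Submodule R (ModuleCat.of R M)) < ⊤ :=
    lt_top_iff_ne_top.mpr (Submodule.top_ne_ideal_smul_of_le_jacobson_annihilator
      (maximalIdeal_le_jacobson _)).symm
  have smul_lt' : maximalIdeal R • (⊤ : Submodule R (ModuleCat.of R (QuotSMulTop x M))) < ⊤ :=
    lt_top_iff_ne_top.mpr (Submodule.top_ne_ideal_smul_of_le_jacobson_annihilator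
      (maximalIdeal_le_jacobson _)).symm
  have tfae := ModuleCat.exists_isRegular_tfae (maximalIdeal R) (n + 1) (ModuleCat.of R M) smul_lt
  have tfae' := ModuleCat.exists_isRegular_tfae (maximalIdeal R) n
    (ModuleCat.of R (QuotSMulTop x M)) smul_lt'
  have h4 : ∃ rs : List R, rs.length = n + 1 ∧ (∀ r ∈ rs, r ∈ maximalIdeal R) ∧
      RingTheory.Sequence.IsRegular (ModuleCat.of R M) rs := ⟨rs, hlen, hmem, hreg⟩
  have h2 := (tfae.out 3 1).mp h4
  have hxreg' : IsSMulRegular (ModuleCat.of R M) x := hxreg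
  have h2' : ∀ i < n, Subsingleton (Ext (ModuleCat.of R (Shrink.{0} (R ⧸ maximalIdeal R)))
      (ModuleCat.of R (QuotSMulTop x M)) i) := by
    intro i hi
    have zero1 := AddCommGrpCat.isZero_of_iff_subsingleton.mpr (h2 i (by omega))
    have zero2 := AddCommGrpCat.isZero_of_iff_subsingleton.mpr (h2 (i + 1) (by omega))
    exact AddCommGrpCat.subsingleton_of_isZero <| ShortComplex.Exact.isZero_of_both_zeros
      ((Ext.covariant_sequence_exact₃' _ hxreg'.smulShortComplex_shortExact) i (i + 1) rfl)
      (zero1.eq_zero_of_src _) (zero2.eq_zero_of_tgt _)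
  exact (tfae'.out 1 3).mp h2'

end Fermat.Agent.S57
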