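import Mathlib
import Fermat.Agent.S57.Depth

/-!
# "Good" local rings and freeness of maximal Cohen-Macaulay modules

`Good n R` is an inductive way to say that `R` is a regular local ring of dimension `n`
whose maximal ideal is generated by a sequence of successive prime elements.
-/

set_option autoImplicit false

namespace Fermat.Agent.S57

open IsLocalRing RingTheory.Sequence Submodule Pointwise

/-- `Good n R`: `R` is obtained from a field by `n` successive "prime element" extensions. -/
def Good : ℕ → ∀ (R : Type) [CommRing R], Prop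
  | 0, R, _ => IsField R
  | (n + 1), R, _ => IsDomain R ∧ ∃ x : R, x ≠ 0 ∧ ¬ IsUnit x ∧ Good n (R ⧸ Ideal.span {x})

theorem good_zero_iff (R : Type) [CommRing R] : Good 0 R ↔ IsField R := Iff.rfl

theorem good_succ_iff (n : ℕ) (R : Type) [CommRing R] :
    Good (n + 1) R ↔
      IsDomain R ∧ ∃ x : R, x ≠ 0 ∧ ¬ IsUnit x ∧ Good n (R ⧸ Ideal.span {x}) := Iff.rfl

theorem Good.isDomain {n : ℕ} {R : Type} [CommRing R] (h : Good n R) : IsDomain R := by
  cases n with
  | zero =>
    rw [good_zero_iff] at h
    letI := h.toField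
    infer_instance
  | succ n => exact ((good_succ_iff n R).mp h).1

theorem isLocalRing_quotient_span_singleton {R : Type} [CommRing R] [IsLocalRing R] {x : R}
    (hx : ¬ IsUnit x) : IsLocalRing (R ⧸ Ideal.span {x}) := by
  have hne : Ideal.span {x} ≠ ⊤ := by
    rwa [Ne, Ideal.span_singleton_eq_top]
  haveI : Nontrivial (R ⧸ Ideal.span {x}) := Ideal.Quotient.nontrivial_iff.mpr hne
  exact IsLocalRing.of_surjective' (Ideal.Quotient.mk _) Ideal.Quotient.mk_surjective

theorem Good.ringKrullDim_le : ∀ (n : ℕ) (R : Type) [CommRing R] [IsLocalRing R]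
    [IsNoetherianRing R], Good n R → ringKrullDim R ≤ (n : WithBot ℕ∞) := by
  intro n
  induction n with
  | zero =>
    intro R _ _ _ h
    rw [good_zero_iff] at h
    rw [ringKrullDim_eq_zero_of_isField h]
    simp
  | succ n ih =>
    intro R _ _ _ h
    obtain ⟨hdom, x, hx0, hxu, hG⟩ := (good_succ_iff n R).mp h
    haveI := isLocalRing_quotient_span_singleton hxu
    have h1 := ih (R ⧸ Ideal.span {x}) hG
    have hreg : IsSMulRegular R x := by
      have := hdom
      exact (IsRegular.of_ne_zero hx0).isSMulRegular
    have hjac : x ∈ Ring.jacobson R := by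
      rw [IsLocalRing.ringJacobson_eq_maximalIdeal]
      exact (mem_maximalIdeal x).mpr hxu
    rw [← ringKrullDim_quotient_span_singleton_succ_eq_ringKrullDim_of_mem_jacobson hreg hjac]
    push_cast
    gcongr

/-- **Maximal Cohen-Macaulay modules over good local rings are free.** -/
theorem free_of_good : ∀ (n : ℕ) (R : Type) [CommRing R] [IsLocalRing R] [IsNoetherianRing R],
    Good n R → ∀ (M : Type) [AddCommGroup M] [Module R M] [Module.Finite R M] (rs : List R),
      rs.length = n → (∀ r ∈ rs, r ∈ maximalIdeal R) → IsWeaklyRegular M rs →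
      Module.Free R M := by
  intro n
  induction n with
  | zero =>
    intro R _ _ _ h M _ _ _ rs _ _ _
    rw [good_zero_iff] at h
    letI := h.toField
    exact Module.Free.of_divisionRing R M
  | succ n ih =>
    intro R _ _ _ h M _ _ _ rs hlen hmem hreg
    obtain ⟨hdom, x, hx0, hxu, hG⟩ := (good_succ_iff n R).mp h
    by_cases hM : Subsingleton M
    · exact Module.Free.of_subsingleton R M
    rw [not_subsingleton_iff_nontrivial] at hM
    have hxm : x ∈ maximalIdeal R := (mem_maximalIdeal x).mpr hxu
    have hdim : ringKrullDim R ≤ (rs.length : WithBot ℕ∞) := by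
      rw [hlen]
      exact Good.ringKrullDim_le (n + 1) R h
    have hxreg : IsSMulRegular M x :=
      isSMulRegular_of_ne_zero_of_isWeaklyRegular rs hdim hmem hreg hx0
    have hreg' : IsRegular M rs := IsRegular.of_isWeaklyRegular_of_mem_maximalIdeal M hmem hreg
    obtain ⟨rs', hlen', hmem', hreg''⟩ :=
      exists_isRegular_quotSMulTop rs n hlen hmem hreg' hxm hxreg
    haveI := isLocalRing_quotient_span_singleton hxu
    haveI : Module.Finite (R ⧸ Ideal.span {x}) (QuotSMulTop x M) :=
      Module.Finite.of_restrictScalars_finite R (R ⧸ Ideal.span {x}) (QuotSMulTop x M)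
    have hw : IsWeaklyRegular (QuotSMulTop x M) (rs'.map (algebraMap R (R ⧸ Ideal.span {x}))) :=
      (isWeaklyRegular_map_algebraMap_iff (R ⧸ Ideal.span {x}) (QuotSMulTop x M) rs').mpr
        hreg''.toIsWeaklyRegular
    have hmem'' : ∀ r ∈ rs'.map (algebraMap R (R ⧸ Ideal.span {x})),
        r ∈ maximalIdeal (R ⧸ Ideal.span {x}) := by
      intro r hr
      obtain ⟨r0, hr0, rfl⟩ := List.mem_map.mp hr
      have h0 := hmem' r0 hr0
      rw [mem_maximalIdeal, mem_nonunits_iff] at h0 ⊢
      intro hu
      apply h0
      have : IsLocalHom (algebraMap R (R ⧸ Ideal.span {x})) :=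
        IsLocalHom.of_surjective (Ideal.Quotient.mk (Ideal.span {x}))
          Ideal.Quotient.mk_surjective
      exact isUnit_of_map_unit (algebraMap R (R ⧸ Ideal.span {x})) r0 hu
    have hfree := ih (R ⧸ Ideal.span {x}) hG (QuotSMulTop x M)
      (rs'.map (algebraMap R (R ⧸ Ideal.span {x}))) (by simpa using hlen') hmem'' hw
    haveI : Module.FinitePresentation R M := Module.finitePresentation_of_finite R M
    exact (Module.free_quotSMulTop_iff_free R M
      (IsLocalRing.maximalIdeal_le_jacobson ⊥ hxm) hxreg).mp hfree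

end Fermat.Agent.S57
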