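import Mathlib
import Fermat.Agent.S57.Good

/-!
# Power series rings over a DVR are "good", and admit regular sequences of maximal length
-/

set_option autoImplicit false

namespace Fermat.Agent.S57

open IsLocalRing RingTheory.Sequence Submodule Pointwise

theorem Good.of_ringEquiv : ∀ (n : ℕ) {R R' : Type} [CommRing R] [CommRing R'],
    Good n R → (R ≃+* R') → Good n R' := by
  intro n
  induction n with
  | zero =>
    intro R R' _ _ h e
    rw [good_zero_iff] at h ⊢
    exact MulEquiv.isField h e.symm.toMulEquiv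
  | succ n ih =>
    intro R R' _ _ h e
    obtain ⟨hdom, x, hx0, hxu, hG⟩ := (good_succ_iff n R).mp h
    rw [good_succ_iff]
    refine ⟨e.symm.toMulEquiv.isDomain R, e x, ?_, ?_, ?_⟩
    · rwa [Ne, EmbeddingLike.map_eq_zero_iff]
    · intro hu
      apply hxu
      have := hu.map e.symm
      simpa using this
    · have hI : Ideal.span {e x} = Ideal.map (e : R →+* R') (Ideal.span {x}) := by
        rw [Ideal.map_span, Set.image_singleton]
        rfl
      exact ih hG (Ideal.quotientEquiv (Ideal.span {x}) (Ideal.span {e x}) e hI)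

theorem Good.powerSeries {n : ℕ} {A : Type} [CommRing A] (h : Good n A) :
    Good (n + 1) (PowerSeries A) := by
  haveI := h.isDomain
  rw [good_succ_iff]
  refine ⟨inferInstance, PowerSeries.X, PowerSeries.X_ne_zero, ?_, ?_⟩
  · exact PowerSeries.X_irreducible.not_isUnit
  · have hker : Ideal.span ({PowerSeries.X} : Set (PowerSeries A)) =
        RingHom.ker (PowerSeries.constantCoeff (R := A)) := by
      apply Ideal.ext
      intro φ
      rw [RingHom.mem_ker, Ideal.mem_span_singleton, PowerSeries.X_dvd_iff]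
    have e : (PowerSeries A ⧸ Ideal.span ({PowerSeries.X} : Set (PowerSeries A))) ≃+* A :=
      (Ideal.quotEquivOfEq hker).trans
        (RingHom.quotientKerEquivOfSurjective PowerSeries.constantCoeff_surj)
    exact Good.of_ringEquiv n h e.symm

theorem good_dvr (𝒪 : Type) [CommRing 𝒪] [IsDomain 𝒪] [IsDiscreteValuationRing 𝒪] :
    Good 1 𝒪 := by
  rw [good_succ_iff]
  obtain ⟨ϖ, hϖ⟩ := IsDiscreteValuationRing.exists_irreducible 𝒪
  refine ⟨inferInstance, ϖ, hϖ.ne_zero, hϖ.not_isUnit, ?_⟩
  rw [good_zero_iff]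
  have hmax : (Ideal.span {ϖ}).IsMaximal := by
    rw [← hϖ.maximalIdeal_eq]
    infer_instance
  exact (Ideal.Quotient.maximal_ideal_iff_isField_quotient _).mp hmax

theorem good_mvPowerSeries (𝒪 : Type) [CommRing 𝒪] [IsDomain 𝒪] [IsDiscreteValuationRing 𝒪] :
    ∀ r : ℕ, Good (r + 1) (MvPowerSeries (Fin r) 𝒪) := by
  intro r
  induction r with
  | zero =>
    exact Good.of_ringEquiv 1 (good_dvr 𝒪) (MvPowerSeries.isEmptyEquiv (Fin 0) 𝒪).toRingEquiv.symm
  | succ r ih =>
    exact Good.of_ringEquiv (r + 2) (Good.powerSeries ih)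
      (MvPowerSeries.finSuccEquiv 𝒪 r).toRingEquiv.symm

/-- A good local ring of "dimension" `n` has a regular sequence of length `n` in its
maximal ideal. -/
theorem Good.exists_isWeaklyRegular : ∀ (n : ℕ) (R : Type) [CommRing R] [IsLocalRing R],
    Good n R → ∃ rs : List R, rs.length = n ∧ (∀ r ∈ rs, r ∈ maximalIdeal R) ∧
      IsWeaklyRegular R rs := by
  intro n
  induction n with
  | zero =>
    intro R _ _ _
    exact ⟨[], rfl, by simp, IsWeaklyRegular.nil R R⟩
  | succ n ih =>
    intro R _ _ h
    obtain ⟨hdom, x, hx0, hxu, hG⟩ := (good_succ_iff n R).mp h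
    haveI := isLocalRing_quotient_span_singleton hxu
    obtain ⟨rsbar, hlen, hmem, hreg⟩ := ih (R ⧸ Ideal.span {x}) hG
    obtain ⟨rs, rfl⟩ : ∃ rs : List R, rs.map (Ideal.Quotient.mk (Ideal.span {x})) = rsbar :=
      List.map_surjective_iff.mpr Ideal.Quotient.mk_surjective rsbar
    refine ⟨x :: rs, by simpa using hlen, ?_, ?_⟩
    · intro r hr
      rcases List.mem_cons.mp hr with rfl | hr
      · exact (mem_maximalIdeal _).mpr hxu
      · have h0 := hmem _ (List.mem_map_of_mem hr)
        rw [mem_maximalIdeal, mem_nonunits_iff] at h0 ⊢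
        exact fun hu => h0 (hu.map _)
    · rw [isWeaklyRegular_cons_iff]
      refine ⟨?_, ?_⟩
      · have := hdom
        exact (IsRegular.of_ne_zero hx0).isSMulRegular
      · have h1 : IsWeaklyRegular (R ⧸ Ideal.span {x}) rs :=
          (isWeaklyRegular_map_algebraMap_iff (R ⧸ Ideal.span {x}) (R ⧸ Ideal.span {x}) rs).mp hreg
        have heq : (Ideal.span {x} : Submodule R R) = x • (⊤ : Submodule R R) := by
          rw [← Submodule.ideal_span_singleton_smul x ⊤]
          simp
        exact (LinearEquiv.isWeaklyRegular_congr (Submodule.quotEquivOfEq _ _ heq) rs).mp h1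

end Fermat.Agent.S57
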